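/-
S14 / module TH (Thaine's argument): common definitions.
`K = ℚ(ζ_p)`, `L = K(ξ)` with `ξ` a primitive `l`-th root of unity, `l ≡ 1 mod p` prime.
-/
import Fermat.Agent.S14.Defs

set_option autoImplicit false

namespace Fermat.Agent.S14

open NumberField
open scoped NumberField nonZeroDivisors

section THDefs

variable (p : ℕ) [Fact p.Prime] (K : Type) [Field K] [NumberField K]
  [IsCyclotomicExtension {p} ℚ K]
variable (l : ℕ) [Fact l.Prime] (L : Type) [Field L] [NumberField L] [Algebra K L]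
  [IsCyclotomicExtension {l} K L]

/-- The chosen primitive `l`-th root of unity `ξ` of `L`, as an algebraic integer. -/
noncomputable def xiInt : 𝓞 L := (IsCyclotomicExtension.zeta_spec l K L).toInteger

/-- `λ = 1 - ξ`. -/
noncomputable def lamInt : 𝓞 L := 1 - xiInt K l L

/-- The image of `ζ_p` in `𝓞 L`. -/
noncomputable def zetaL : 𝓞 L := algebraMap (𝓞 K) (𝓞 L) (zetaInt p K)

/-- `w_a = 1 - ζ^a ξ`. -/
noncomputable def wInt (a : ℕ) : 𝓞 L := 1 - zetaL p K L ^ a * xiInt K l L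

/-- The conjugate ideal `σ_d P`. -/
noncomputable def sigIdeal (d : (ZMod p)ˣ) (P : Ideal (𝓞 K)) : Ideal (𝓞 K) :=
  P.map ((sigInt p K d : 𝓞 K ≃+* 𝓞 K) : 𝓞 K →+* 𝓞 K)

/-- The exponent of the prime `𝔮` in the principal ideal `(κ)`. -/
noncomputable def cnt (𝔮 : Ideal (𝓞 K)) (κ : 𝓞 K) : ℕ :=
  (UniqueFactorizationMonoid.normalizedFactors (Ideal.span {κ})).count 𝔮

end THDefs

end Fermat.Agent.S14
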