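/-
S14 / TH : multiplicity of a prime `𝔔` of `𝓞 L` in an extended ideal `I 𝓞 L`.
-/
import Fermat.Agent.S14.TH.Defs

set_option autoImplicit false

namespace Fermat.Agent.S14

open NumberField UniqueFactorizationMonoid
open scoped NumberField nonZeroDivisors

variable (K : Type) [Field K] [NumberField K] (L : Type) [Field L] [NumberField L] [Algebra K L]

theorem TH_count_map (𝔮 : Ideal (𝓞 K)) (𝔔 : Ideal (𝓞 L)) [𝔔.IsPrime] [𝔔.LiesOver 𝔮] (h𝔮 : 𝔮 ≠ ⊥)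
    (I : Ideal (𝓞 K)) (hI : I ≠ ⊥) :
    (normalizedFactors (I.map (algebraMap (𝓞 K) (𝓞 L)))).count 𝔔 =
      𝔔.ramificationIdx (𝓞 K) * (normalizedFactors I).count 𝔮 := by
  have hqp : 𝔮.IsPrime := Ideal.isPrime_of_liesOver 𝔔 𝔮
  have hqm : 𝔮.IsMaximal := hqp.isMaximal h𝔮
  obtain ⟨J, hJ, hIJ⟩ := Ideal.eq_prime_pow_mul_coprime hI 𝔮
  have hJ0 : J ≠ ⊥ := by
    rintro rfl
    rw [Ideal.mul_bot] at hIJ
    exact hI hIJ
  have hmapq : 𝔮.map (algebraMap (𝓞 K) (𝓞 L)) ≠ ⊥ := Ideal.map_ne_bot_of_ne_bot h𝔮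
  have hmapJ : J.map (algebraMap (𝓞 K) (𝓞 L)) ≠ ⊥ := Ideal.map_ne_bot_of_ne_bot hJ0
  have hle : 𝔮.map (algebraMap (𝓞 K) (𝓞 L)) ≤ 𝔔 :=
    Ideal.map_le_of_le_comap (Ideal.over_def 𝔔 𝔮).le
  have hJQ : (normalizedFactors (J.map (algebraMap (𝓞 K) (𝓞 L)))).count 𝔔 = 0 := by
    rw [Multiset.count_eq_zero]
    intro hmem
    have hdvd : 𝔔 ∣ J.map (algebraMap (𝓞 K) (𝓞 L)) := dvd_of_mem_normalizedFactors hmem
    have hle2 : J.map (algebraMap (𝓞 K) (𝓞 L)) ≤ 𝔔 := Ideal.le_of_dvd hdvd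
    have htop : (𝔮 ⊔ J).map (algebraMap (𝓞 K) (𝓞 L)) = ⊤ := by rw [hJ, Ideal.map_top]
    rw [Ideal.map_sup] at htop
    have : (⊤ : Ideal (𝓞 L)) ≤ 𝔔 := htop ▸ sup_le hle hle2
    exact (‹𝔔.IsPrime›).ne_top (top_le_iff.mp this)
  conv_lhs => rw [hIJ]
  rw [Ideal.map_mul, Ideal.map_pow, normalizedFactors_mul (pow_ne_zero _ hmapq) hmapJ,
    normalizedFactors_pow, Multiset.count_add, Multiset.count_nsmul, hJQ, add_zero,
    ← Ideal.IsDedekindDomain.ramificationIdx_eq_normalizedFactors_count 𝔮 𝔔 hmapq, mul_comm]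

end Fermat.Agent.S14
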