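/-
S14 / TH-D : for a prime `𝔮` of `K` not above `l`, `p ∣ v_𝔮(κ)`.
-/
import Fermat.Agent.S14.TH.Count

set_option autoImplicit false

namespace Fermat.Agent.S14

open NumberField UniqueFactorizationMonoid
open scoped NumberField nonZeroDivisors

variable (p : ℕ) [Fact p.Prime] (K : Type) [Field K] [NumberField K]
  [IsCyclotomicExtension {p} ℚ K]
variable (l : ℕ) [Fact l.Prime] (L : Type) [Field L] [NumberField L] [Algebra K L]
  [IsCyclotomicExtension {l} K L]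

namespace THD

omit [IsCyclotomicExtension {p} ℚ K] [IsCyclotomicExtension {l} K L] [Algebra K L] in
/-- The absolute ramification index of a prime of `ℚ(ζ_{pl})` not above `l` is prime to `p`. -/
theorem coprime_ramificationIdx (hcyc : IsCyclotomicExtension {p * l} ℚ L) (hlp : l ≠ p)
    (𝔔 : Ideal (𝓞 L)) [𝔔.IsPrime] (h0 : 𝔔 ≠ ⊥) (hl : (l : 𝓞 L) ∉ 𝔔) :
    Nat.Coprime (𝔔.ramificationIdx ℤ) p := by
  have hpp : p.Prime := Fact.out
  have hlpr : l.Prime := Fact.out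
  -- the rational prime below
  have hunder : (𝔔.under ℤ).IsPrime := inferInstance
  have hne : 𝔔.under ℤ ≠ ⊥ := Ideal.IsIntegral.comap_ne_bot ℤ h0
  obtain ⟨q, hq⟩ : ∃ q : ℕ, 𝔔.under ℤ = Ideal.span {(q : ℤ)} := by
    obtain ⟨g, hg⟩ := IsPrincipalIdealRing.principal (𝔔.under ℤ)
    refine ⟨g.natAbs, ?_⟩
    rw [hg, Ideal.submodule_span_eq, Ideal.span_singleton_eq_span_singleton]
    exact (Int.associated_natAbs g)
  have hqprime : q.Prime := by
    have h1 : Prime (q : ℤ) := by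
      rw [← Ideal.span_singleton_prime]
      · rw [← hq]; exact hunder
      · intro h
        apply hne
        rw [hq, h]
        simp
    exact Nat.prime_iff_prime_int.mpr h1
  have : Fact q.Prime := ⟨hqprime⟩
  have : 𝔔.LiesOver (Ideal.span {(q : ℤ)}) := ⟨hq.symm⟩
  have hql : q ≠ l := by
    rintro rfl
    apply hl
    have : ((q : ℤ)) ∈ 𝔔.under ℤ := by rw [hq]; exact Ideal.mem_span_singleton_self _
    simpa [Ideal.under_def, Ideal.mem_comap] using this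
  by_cases hqp : q = p
  · subst hqp
    have h := IsCyclotomicExtension.Rat.ramificationIdx_eq (p := q) (k := 0) (m := l) (q * l) L 𝔔
      (by ring) (fun h => hlp ((Nat.prime_dvd_prime_iff_eq hpp hlpr).mp h).symm)
    rw [h, pow_zero, one_mul]
    refine Nat.Coprime.symm ((Nat.Prime.coprime_iff_not_dvd hpp).mpr fun h => ?_)
    have h2 := hpp.two_le
    have := Nat.le_of_dvd (by omega) h
    omega
  · have h := IsCyclotomicExtension.Rat.ramificationIdx_eq_of_not_dvd (m := p * l) q L 𝔔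
      (fun h => by
        rcases (Nat.Prime.dvd_mul hqprime).mp h with h | h
        · exact hqp ((Nat.prime_dvd_prime_iff_eq hqprime hpp).mp h)
        · exact hql ((Nat.prime_dvd_prime_iff_eq hqprime hlpr).mp h))
    rw [h]
    exact Nat.coprime_one_left p

end THD

omit [IsCyclotomicExtension {p} ℚ K] [IsCyclotomicExtension {l} K L] in
theorem TH_dvd_cnt_aux (hcyc : IsCyclotomicExtension {p * l} ℚ L) (hlp : l ≠ p) (hl1 : p ∣ l - 1)
    (y : 𝓞 L) (κ : 𝓞 K) (hκ : κ ≠ 0)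
    (hy : Ideal.span {algebraMap (𝓞 K) (𝓞 L) κ} = Ideal.span {y} ^ (l - 1))
    (𝔮 : Ideal (𝓞 K)) (h𝔮 : 𝔮.IsPrime) (h0 : 𝔮 ≠ ⊥) (hl : (l : 𝓞 K) ∉ 𝔮) :
    p ∣ cnt K 𝔮 κ := by
  have hpp : p.Prime := Fact.out
  have hqm : 𝔮.IsMaximal := h𝔮.isMaximal h0
  obtain ⟨𝔔, h𝔔m, h𝔔o⟩ := Ideal.exists_maximal_ideal_liesOver_of_isIntegral 𝔮 (S := 𝓞 L)
  have h𝔔p : 𝔔.IsPrime := h𝔔m.isPrime
  have h𝔔0 : 𝔔 ≠ ⊥ := by
    rintro rfl
    apply h0
    rw [Ideal.over_def (⊥ : Ideal (𝓞 L)) 𝔮]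
    exact Ideal.under_bot _ _
  have hl' : (l : 𝓞 L) ∉ 𝔔 := by
    intro h
    apply hl
    rw [Ideal.over_def 𝔔 𝔮, Ideal.under_def, Ideal.mem_comap, map_natCast]
    exact h
  have hcop := THD.coprime_ramificationIdx p l L hcyc hlp 𝔔 h𝔔0 hl'
  have hdvd : 𝔔.ramificationIdx (𝓞 K) ∣ 𝔔.ramificationIdx ℤ :=
    Ideal.ramificationIdx_above_dvd 𝔮 𝔔
  have hcop' : Nat.Coprime (𝔔.ramificationIdx (𝓞 K)) p := Nat.Coprime.coprime_dvd_left hdvd hcop
  have hI : Ideal.span {κ} ≠ ⊥ := by simpa [Ideal.span_singleton_eq_bot] using hκ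
  have hc := TH_count_map K L 𝔮 𝔔 h0 (Ideal.span {κ}) hI
  rw [Ideal.map_span, Set.image_singleton, hy, normalizedFactors_pow, Multiset.count_nsmul] at hc
  have h1 : p ∣ 𝔔.ramificationIdx (𝓞 K) * cnt K 𝔮 κ := by
    rw [cnt, ← hc]
    exact Dvd.dvd.mul_right hl1 _
  exact (Nat.Coprime.dvd_mul_left hcop'.symm).mp h1

end Fermat.Agent.S14
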