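/-
S14 / TH-G: from the factorisation `(κ) = J^p ∏ (σ_d P)^{r_d}` with `r_d ≡ d^{p-3} r_1`
to `stickE [P] = 0` in `Cl(K)/p`.
-/
import Fermat.Agent.S14.TH.Defs

set_option autoImplicit false

namespace Fermat.Agent.S14

open NumberField JacobiSumStickelberger
open scoped NumberField nonZeroDivisors

variable (p : ℕ) [Fact p.Prime] (K : Type) [Field K] [NumberField K]
  [IsCyclotomicExtension {p} ℚ K]

namespace THG

theorem sigIdeal_ne_bot (P : Ideal (𝓞 K)) (hP0 : P ≠ ⊥) (d : (ZMod p)ˣ) :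
    sigIdeal p K d P ≠ ⊥ := by
  intro h
  apply hP0
  have hinj : Function.Injective
      (((sigInt p K d : 𝓞 K ≃+* 𝓞 K) : 𝓞 K →+* 𝓞 K) : 𝓞 K → 𝓞 K) := (sigInt p K d).injective
  exact (Ideal.map_eq_bot_iff_of_injective hinj).mp h

/-- The Galois action on the class of an ideal. -/
theorem clGalAction_clOf (P : Ideal (𝓞 K)) (hP0 : P ≠ ⊥) (d : (ZMod p)ˣ) :
    clGalAction p K d (clOf p K P hP0) =
      clOf p K (sigIdeal p K d P) (sigIdeal_ne_bot p K P hP0 d) := by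
  unfold clOf
  rw [clGalAction_clProj_mk0]
  rfl

theorem clOf_mul (I J : Ideal (𝓞 K)) (hI : I ≠ ⊥) (hJ : J ≠ ⊥) (hIJ : I * J ≠ ⊥) :
    clOf p K (I * J) hIJ = clOf p K I hI + clOf p K J hJ := by
  unfold clOf
  rw [← map_add, ← ofMul_mul, ← map_mul]
  rfl

theorem clOf_congr (I J : Ideal (𝓞 K)) (hI : I ≠ ⊥) (h : I = J) :
    clOf p K I hI = clOf p K J (h ▸ hI) := by
  subst h; rfl

theorem clOf_one (h : (1 : Ideal (𝓞 K)) ≠ ⊥) : clOf p K 1 h = 0 := by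
  unfold clOf
  have : (⟨1, mem_nonZeroDivisors_iff_ne_zero.mpr h⟩ : (Ideal (𝓞 K))⁰) = 1 := rfl
  rw [this, map_one, ofMul_one, map_zero]

theorem clOf_pow (I : Ideal (𝓞 K)) (hI : I ≠ ⊥) (n : ℕ) (hn : I ^ n ≠ ⊥) :
    clOf p K (I ^ n) hn = n • clOf p K I hI := by
  unfold clOf
  rw [← map_nsmul, ← ofMul_pow, ← map_pow]
  rfl

theorem clOf_prod {ι : Type} (s : Finset ι) (f : ι → Ideal (𝓞 K)) (hf : ∀ i, f i ≠ ⊥)
    (h : ∏ i ∈ s, f i ≠ ⊥) :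
    clOf p K (∏ i ∈ s, f i) h = ∑ i ∈ s, clOf p K (f i) (hf i) := by
  classical
  induction s using Finset.induction_on with
  | empty =>
    simp only [Finset.sum_empty]
    exact clOf_one p K _
  | insert a s ha ih =>
    have h2 : ∏ i ∈ s, f i ≠ ⊥ := by
      rw [← Ideal.zero_eq_bot]
      exact Finset.prod_ne_zero_iff.mpr fun i _ => hf i
    have h3 : f a * ∏ i ∈ s, f i ≠ ⊥ := by
      rw [← Finset.prod_insert ha]; exact h
    rw [Finset.sum_insert ha, ← ih h2, ← clOf_mul p K _ _ (hf a) h2 h3]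
    exact clOf_congr p K _ _ h (Finset.prod_insert ha)

theorem clOf_span (κ : 𝓞 K) (h : Ideal.span {κ} ≠ ⊥) : clOf p K (Ideal.span {κ}) h = 0 := by
  unfold clOf
  have : ClassGroup.mk0 (⟨Ideal.span {κ}, mem_nonZeroDivisors_iff_ne_zero.mpr h⟩ :
      (Ideal (𝓞 K))⁰) = 1 := by
    rw [ClassGroup.mk0_eq_one_iff]
    exact ⟨⟨κ, rfl⟩⟩
  rw [this, ofMul_one, map_zero]

theorem p_nsmul_eq_zero (x : ClGalModule p (𝓞 K)) : p • x = 0 := by
  rw [← Nat.cast_smul_eq_nsmul (ZMod p), ZMod.natCast_self, zero_smul]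

end THG

open THG in
theorem TH_class (P : Ideal (𝓞 K)) (hP0 : P ≠ ⊥) (κ : 𝓞 K) (hκ : κ ≠ 0) (r : (ZMod p)ˣ → ℕ)
    (hfac : ∃ J : Ideal (𝓞 K), Ideal.span {κ} = J ^ p * ∏ d : (ZMod p)ˣ, sigIdeal p K d P ^ r d)
    (hr1 : (r 1 : ZMod p) ≠ 0)
    (hrd : ∀ d : (ZMod p)ˣ, (r d : ZMod p) = (d : ZMod p) ^ (p - 3) * r 1) :
    stickE p K (clOf p K P hP0) = 0 := by
  obtain ⟨J, hJ⟩ := hfac
  have hspan : Ideal.span {κ} ≠ ⊥ := by
    rw [Ne, Ideal.span_singleton_eq_bot]; exact hκ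
  have hprod0 : J ^ p * ∏ d : (ZMod p)ˣ, sigIdeal p K d P ^ r d ≠ ⊥ := hJ ▸ hspan
  have hJp : J ^ p ≠ ⊥ := fun h => hprod0 (by rw [h, Ideal.bot_mul])
  have hJ0 : J ≠ ⊥ := by
    rintro rfl
    apply hJp
    rw [← Ideal.zero_eq_bot, zero_pow (Fact.out : p.Prime).ne_zero]
  have hQ : ∏ d : (ZMod p)ˣ, sigIdeal p K d P ^ r d ≠ ⊥ :=
    fun h => hprod0 (by rw [h, Ideal.mul_bot])
  have hs : ∀ d : (ZMod p)ˣ, sigIdeal p K d P ≠ ⊥ := sigIdeal_ne_bot p K P hP0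
  have hsr : ∀ d : (ZMod p)ˣ, sigIdeal p K d P ^ r d ≠ ⊥ := fun d => by
    rw [← Ideal.zero_eq_bot]; exact pow_ne_zero _ (hs d)
  have h0 : (0 : ClGalModule p (𝓞 K)) =
      ∑ d : (ZMod p)ˣ, (r d) • clOf p K (sigIdeal p K d P) (hs d) := by
    rw [← clOf_span p K κ hspan, clOf_congr p K _ _ hspan hJ, clOf_mul p K _ _ hJp hQ,
      clOf_pow p K J hJ0 p hJp, p_nsmul_eq_zero, zero_add, clOf_prod p K _ _ hsr]
    exact Finset.sum_congr rfl fun d _ => clOf_pow p K _ (hs d) _ _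
  have h1 : (r 1 : ZMod p) • stickE p K (clOf p K P hP0) = 0 := by
    rw [h0, stickE, LinearMap.sum_apply, Finset.smul_sum]
    refine Finset.sum_congr rfl fun d _ => ?_
    rw [LinearMap.smul_apply, clGalAction_clOf, smul_smul, mul_comm, ← hrd d,
      Nat.cast_smul_eq_nsmul]
  exact (smul_eq_zero.mp h1).resolve_left hr1

end Fermat.Agent.S14
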