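/-
S14 / TH-H : factorisation of `(κ)` into a `p`-th power times the conjugates of `P`.
-/
import Fermat.Agent.S14.TH.Defs
import Fermat.Agent.S14.U2
import Fermat.Agent.S14.RAM

set_option autoImplicit false

namespace Fermat.Agent.S14

open NumberField JacobiSumStickelberger
open scoped NumberField nonZeroDivisors

namespace THH

open UniqueFactorizationMonoid in
/-- General Dedekind lemma: if all primes outside `T` occur with multiplicity divisible by `n`. -/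
theorem exists_pow_mul_prod {R : Type*} [CommRing R] [IsDedekindDomain R] (I : Ideal R)
    (hI : I ≠ ⊥) (T : Finset (Ideal R)) (n : ℕ)
    (h : ∀ 𝔮 ∈ normalizedFactors I, 𝔮 ∉ T → n ∣ (normalizedFactors I).count 𝔮) :
    ∃ J : Ideal R, I = J ^ n * ∏ 𝔮 ∈ T, 𝔮 ^ (normalizedFactors I).count 𝔮 := by
  classical
  set m := normalizedFactors I with hm
  have h1 : I = ∏ 𝔮 ∈ m.toFinset, 𝔮 ^ m.count 𝔮 := by
    rw [← Finset.prod_multiset_count, hm, Ideal.prod_normalizedFactors_eq_self hI]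
  refine ⟨∏ 𝔮 ∈ m.toFinset.filter (· ∉ T), 𝔮 ^ (m.count 𝔮 / n), ?_⟩
  have h2 : ∏ 𝔮 ∈ T, 𝔮 ^ m.count 𝔮 = ∏ 𝔮 ∈ m.toFinset.filter (· ∈ T), 𝔮 ^ m.count 𝔮 := by
    symm
    apply Finset.prod_subset
    · intro x hx
      exact (Finset.mem_filter.mp hx).2
    · intro x hx hx'
      have : x ∉ m := by
        intro hxm
        exact hx' (Finset.mem_filter.mpr ⟨Multiset.mem_toFinset.mpr hxm, hx⟩)
      rw [Multiset.count_eq_zero_of_notMem this, pow_zero]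
  have h3 : (∏ 𝔮 ∈ m.toFinset.filter (· ∉ T), 𝔮 ^ (m.count 𝔮 / n)) ^ n =
      ∏ 𝔮 ∈ m.toFinset.filter (· ∉ T), 𝔮 ^ m.count 𝔮 := by
    rw [← Finset.prod_pow]
    apply Finset.prod_congr rfl
    intro x hx
    obtain ⟨hx1, hx2⟩ := Finset.mem_filter.mp hx
    rw [← pow_mul, Nat.div_mul_cancel (h x (Multiset.mem_toFinset.mp hx1) hx2)]
  rw [h2, h3, mul_comm, Finset.prod_filter_mul_prod_filter_not]
  exact h1

variable (p : ℕ) [Fact p.Prime] (K : Type) [Field K] [NumberField K]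
  [IsCyclotomicExtension {p} ℚ K]

theorem liesOver_of_mem (l : ℕ) (hl : l.Prime) (𝔮 : Ideal (𝓞 K)) (h𝔮 : 𝔮.IsPrime)
    (hmem : (l : 𝓞 K) ∈ 𝔮) : 𝔮.LiesOver (Ideal.span {(l : ℤ)}) := by
  have hmax : (Ideal.span {(l : ℤ)}).IsMaximal :=
    (Ideal.isPrime_of_prime (Ideal.prime_span_singleton_iff.mpr
      (Nat.prime_iff_prime_int.mp hl))).isMaximal (by simp [hl.ne_zero])
  constructor
  apply hmax.eq_of_le
  · exact (Ideal.IsPrime.under ℤ 𝔮).ne_top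
  · rw [Ideal.span_singleton_le_iff_mem, Ideal.mem_comap]
    simpa using hmem

theorem exists_sigIdeal_eq (P : Ideal (𝓞 K)) (hP : P.IsPrime) (l : ℕ) (hl : l.Prime)
    (hlP : (l : 𝓞 K) ∈ P) (𝔮 : Ideal (𝓞 K)) (h𝔮 : 𝔮.IsPrime) (hmem : (l : 𝓞 K) ∈ 𝔮) :
    ∃ d : (ZMod p)ˣ, sigIdeal p K d P = 𝔮 := by
  have := liesOver_of_mem K l hl P hP hlP
  have := liesOver_of_mem K l hl 𝔮 h𝔮 hmem
  have : IsGalois ℚ K := IsCyclotomicExtension.isGalois {p} ℚ K
  obtain ⟨σ, hσ⟩ := Ideal.exists_smul_eq_of_isGaloisGroup (Ideal.span ({(l : ℤ)} : Set ℤ)) P 𝔮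
    (K ≃ₐ[ℚ] K)
  refine ⟨cycloGalEquiv p K σ, ?_⟩
  rw [← hσ, sigIdeal, Ideal.pointwise_smul_def]
  congr 1
  ext x
  simp only [RingEquiv.coe_toRingHom]
  rw [U2.coe_sigInt]
  simp [sig]
  rfl

theorem exists_int_sub_mem_of_prime_norm (P : Ideal (𝓞 K)) (hl : (Ideal.absNorm P).Prime)
    (x : 𝓞 K) : ∃ z : ℤ, x - (z : 𝓞 K) ∈ P := by
  have : Fact (Ideal.absNorm P).Prime := ⟨hl⟩
  have hcard : Nat.card (𝓞 K ⧸ P) = Ideal.absNorm P := by
    rw [Ideal.absNorm_apply, Submodule.cardQuot_apply]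
  have hne : (1 : 𝓞 K ⧸ P) ≠ 0 := by
    intro h
    have h1 : (1 : 𝓞 K) ∈ P := by
      rw [← Ideal.Quotient.eq_zero_iff_mem, map_one, h]
    have : P = ⊤ := (Ideal.eq_top_iff_one P).mpr h1
    rw [this, Ideal.absNorm_top] at hl
    exact Nat.not_prime_one hl
  have := mem_zmultiples_of_prime_card hcard hne (g' := Ideal.Quotient.mk P x)
  obtain ⟨z, hz⟩ := AddSubgroup.mem_zmultiples_iff.mp this
  refine ⟨z, ?_⟩
  rw [← Ideal.Quotient.eq_zero_iff_mem, map_sub, ← hz]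
  simp

theorem mem_sigIdeal (d : (ZMod p)ˣ) (P : Ideal (𝓞 K)) {x : 𝓞 K} (hx : x ∈ P) :
    sigInt p K d x ∈ sigIdeal p K d P :=
  Ideal.mem_map_of_mem _ hx

theorem sigIdeal_isPrime (d : (ZMod p)ˣ) (P : Ideal (𝓞 K)) (hP : P.IsPrime) :
    (sigIdeal p K d P).IsPrime :=
  Ideal.map_isPrime_of_equiv (sigInt p K d)

theorem sigIdeal_injective (P : Ideal (𝓞 K)) (hP : P.IsPrime) (hl : (Ideal.absNorm P).Prime)
    (hlp : Ideal.absNorm P ≠ p) : Function.Injective (fun d : (ZMod p)ˣ => sigIdeal p K d P) := by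
  intro d d' hdd
  simp only at hdd
  by_contra hne
  obtain ⟨z, hz⟩ := exists_int_sub_mem_of_prime_norm K P hl (zetaInt p K)
  have hp : p.Prime := Fact.out
  have h1 := mem_sigIdeal p K d P hz
  have h2 := mem_sigIdeal p K d' P hz
  rw [← hdd] at h2
  rw [map_sub, U2.sigInt_zetaInt, map_intCast] at h1 h2
  have h3 : zetaInt p K ^ (d : ZMod p).val - zetaInt p K ^ (d' : ZMod p).val ∈ sigIdeal p K d P := by
    have := Ideal.sub_mem _ h1 h2
    simpa using this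
  have hζ := U2.zetaInt_isPrimitiveRoot p K
  have hmem : ∀ i : ℕ, zetaInt p K ^ i ∈ Polynomial.nthRootsFinset p (1 : 𝓞 K) := by
    intro i
    rw [Polynomial.mem_nthRootsFinset hp.pos, ← pow_mul, mul_comm, pow_mul, hζ.pow_eq_one, one_pow]
  have hne' : zetaInt p K ^ (d : ZMod p).val ≠ zetaInt p K ^ (d' : ZMod p).val := by
    intro h
    have := hζ.pow_inj (ZMod.val_lt _) (ZMod.val_lt _) h
    exact hne (Units.ext (ZMod.val_injective p this))
  have hass := hζ.nthRootsFinset_pairwise_associated_sub_one_sub_of_prime hp (hmem _) (hmem _) hne'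
  have h4 : zetaInt p K - 1 ∈ sigIdeal p K d P := by
    obtain ⟨u, hu⟩ := hass.symm
    rw [← hu]
    exact Ideal.mul_mem_right _ _ h3
  have h5 : (p : 𝓞 K) ∈ sigIdeal p K d P := by
    have : pp p K ≤ sigIdeal p K d P := by
      rw [pp, Ideal.span_singleton_le_iff_mem]
      exact h4
    exact this (RAM.natCast_mem_pp p K)
  have h6 : ((Ideal.absNorm P : ℕ) : 𝓞 K) ∈ sigIdeal p K d P := by
    have := mem_sigIdeal p K d P (Ideal.absNorm_mem P)
    simpa using this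
  have hcop : Nat.Coprime (Ideal.absNorm P) p := (Nat.coprime_primes hl hp).mpr hlp
  have h7 : (1 : 𝓞 K) ∈ sigIdeal p K d P := by
    have hb := Nat.isCoprime_iff_coprime.mpr hcop
    obtain ⟨a, b, hab⟩ := hb
    have : (1 : 𝓞 K) = (a : 𝓞 K) * ((Ideal.absNorm P : ℕ) : 𝓞 K) + (b : 𝓞 K) * (p : 𝓞 K) := by
      have := congrArg (Int.cast : ℤ → 𝓞 K) hab
      push_cast at this
      exact this.symm
    rw [this]
    exact Ideal.add_mem _ (Ideal.mul_mem_left _ _ h6) (Ideal.mul_mem_left _ _ h5)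
  exact (sigIdeal_isPrime p K d P hP).ne_top ((Ideal.eq_top_iff_one _).mpr h7)

end THH

variable (p : ℕ) [Fact p.Prime] (K : Type) [Field K] [NumberField K]
  [IsCyclotomicExtension {p} ℚ K]

theorem TH_factor (P : Ideal (𝓞 K)) (hP : P.IsPrime) (hl : (Ideal.absNorm P).Prime)
    (hlp : Ideal.absNorm P ≠ p) (κ : 𝓞 K) (hκ : κ ≠ 0)
    (h : ∀ 𝔮 : Ideal (𝓞 K), 𝔮.IsPrime → 𝔮 ≠ ⊥ → ((Ideal.absNorm P : ℕ) : 𝓞 K) ∉ 𝔮 →
      p ∣ cnt K 𝔮 κ) :
    ∃ J : Ideal (𝓞 K), Ideal.span {κ} =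
      J ^ p * ∏ d : (ZMod p)ˣ, sigIdeal p K d P ^ cnt K (sigIdeal p K d P) κ := by
  classical
  have hI : Ideal.span {κ} ≠ (⊥ : Ideal (𝓞 K)) := by
    rwa [Ne, Ideal.span_singleton_eq_bot]
  obtain ⟨J, hJ⟩ := THH.exists_pow_mul_prod (Ideal.span {κ}) hI
    (Finset.univ.image (fun d : (ZMod p)ˣ => sigIdeal p K d P)) p (by
      intro 𝔮 h𝔮 hT
      have hpr : Prime 𝔮 := UniqueFactorizationMonoid.prime_of_normalized_factor 𝔮 h𝔮
      have h𝔮p : 𝔮.IsPrime := Ideal.isPrime_of_prime hpr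
      refine h 𝔮 h𝔮p hpr.ne_zero ?_
      intro hmem
      obtain ⟨d, hd⟩ := THH.exists_sigIdeal_eq p K P hP _ hl (Ideal.absNorm_mem P) 𝔮 h𝔮p hmem
      exact hT (Finset.mem_image.mpr ⟨d, Finset.mem_univ _, hd⟩))
  refine ⟨J, ?_⟩
  rw [Finset.prod_image (fun a _ b _ hab => THH.sigIdeal_injective p K P hP hl hlp hab)] at hJ
  exact hJ

end Fermat.Agent.S14
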