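/-
S14 / TH-A : the field `L = K(ξ) = ℚ(ζ_{pl})` and its Galois group over `K`.
-/
import Fermat.Agent.S14.TH.Defs

set_option autoImplicit false

namespace Fermat.Agent.S14

open NumberField JacobiSumStickelberger
open scoped NumberField nonZeroDivisors

section TH

variable (p : ℕ) [Fact p.Prime] (K : Type) [Field K] [NumberField K]
  [IsCyclotomicExtension {p} ℚ K]

section L

variable (l : ℕ) [Fact l.Prime] (L : Type) [Field L] [NumberField L] [Algebra K L]
  [IsCyclotomicExtension {l} K L]

include K in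
theorem TH_isCyclotomicExtension_mul (hlp : l ≠ p) : IsCyclotomicExtension {p * l} ℚ L := by
  have hp : p.Prime := Fact.out
  have hl : l.Prime := Fact.out
  have : NeZero p := ⟨hp.ne_zero⟩
  have : NeZero l := ⟨hl.ne_zero⟩
  have h1 : IsCyclotomicExtension ({p} ∪ {l}) ℚ L :=
    IsCyclotomicExtension.trans {p} {l} ℚ K L (algebraMap K L).injective
  have hz : IsPrimitiveRoot (algebraMap K L (IsCyclotomicExtension.zeta p ℚ K)) p :=
    (IsCyclotomicExtension.zeta_spec p ℚ K).map_of_injective (algebraMap K L).injective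
  have hx : IsPrimitiveRoot (IsCyclotomicExtension.zeta l K L) l :=
    IsCyclotomicExtension.zeta_spec l K L
  have hcop : Nat.Coprime p l := (Nat.coprime_primes hp hl).mpr (Ne.symm hlp)
  have hprod : IsPrimitiveRoot
      (algebraMap K L (IsCyclotomicExtension.zeta p ℚ K) * IsCyclotomicExtension.zeta l K L)
      (p * l) := by
    have ho : orderOf (algebraMap K L (IsCyclotomicExtension.zeta p ℚ K) *
        IsCyclotomicExtension.zeta l K L) = p * l := by
      rw [(Commute.all _ _).orderOf_mul_eq_mul_orderOf_of_coprime, ← hz.eq_orderOf,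
        ← hx.eq_orderOf]
      rw [← hz.eq_orderOf, ← hx.eq_orderOf]
      exact hcop
    rw [← ho]
    exact IsPrimitiveRoot.orderOf _
  have h2 : IsCyclotomicExtension (({p} ∪ {l}) ∪ {p * l}) ℚ L :=
    IsCyclotomicExtension.union_of_isPrimitiveRoot _ ℚ L hprod
  have hpl : p * l ≠ 0 := Nat.mul_ne_zero hp.ne_zero hl.ne_zero
  have e1 : (({p} ∪ {l}) ∪ {p * l} : Set ℕ) = ({p * l} ∪ {p}) ∪ {l} := by
    ext x
    simp only [Set.mem_union, Set.mem_singleton_iff]
    tauto
  rw [e1] at h2
  have h3 : IsCyclotomicExtension ({p * l} ∪ {p}) ℚ L :=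
    (IsCyclotomicExtension.iff_union_of_dvd ℚ L
      ⟨p * l, by simp, hpl, Dvd.intro_left p rfl⟩).mpr h2
  exact (IsCyclotomicExtension.iff_union_of_dvd ℚ L
      ⟨p * l, by simp, hpl, Dvd.intro l rfl⟩).mpr h3

namespace THA

/-- `[L : K] = l - 1`. -/
theorem finrank_eq (hlp : l ≠ p) : Module.finrank K L = l - 1 := by
  have hp : p.Prime := Fact.out
  have hl : l.Prime := Fact.out
  have : NeZero p := ⟨hp.ne_zero⟩
  have : NeZero l := ⟨hl.ne_zero⟩
  have : NeZero (p * l) := ⟨Nat.mul_ne_zero hp.ne_zero hl.ne_zero⟩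
  have hcyc := TH_isCyclotomicExtension_mul p K l L hlp
  have h1 : Module.finrank ℚ L = (p * l).totient := IsCyclotomicExtension.Rat.finrank (p * l) L
  have h2 : Module.finrank ℚ K = p.totient := IsCyclotomicExtension.Rat.finrank p K
  have hcop : Nat.Coprime p l := (Nat.coprime_primes hp hl).mpr (Ne.symm hlp)
  have h3 := Module.finrank_mul_finrank ℚ K L
  rw [h1, h2, Nat.totient_mul hcop, Nat.totient_prime hl] at h3
  exact Nat.eq_of_mul_eq_mul_left (Nat.totient_pos.mpr hp.pos) h3

include L in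
theorem irreducible_aux (hlp : l ≠ p) : Irreducible (Polynomial.cyclotomic l K) := by
  have hl : l.Prime := Fact.out
  have : NeZero l := ⟨hl.ne_zero⟩
  have hx : IsPrimitiveRoot (IsCyclotomicExtension.zeta l K L) l :=
    IsCyclotomicExtension.zeta_spec l K L
  have hint : IsIntegral K (IsCyclotomicExtension.zeta l K L) :=
    (IsCyclotomicExtension.integral {l} K L).isIntegral _
  have hdeg : (minpoly K (IsCyclotomicExtension.zeta l K L)).natDegree = l - 1 := by
    rw [← finrank_eq p K l L hlp, (hx.powerBasis K).finrank, IsPrimitiveRoot.powerBasis_dim]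
  have hdvd : minpoly K (IsCyclotomicExtension.zeta l K L) ∣ Polynomial.cyclotomic l K := by
    apply minpoly.dvd
    rw [Polynomial.aeval_def, Polynomial.eval₂_eq_eval_map, Polynomial.map_cyclotomic,
      ← Polynomial.IsRoot.def]
    exact hx.isRoot_cyclotomic hl.pos
  have heq : Polynomial.cyclotomic l K = minpoly K (IsCyclotomicExtension.zeta l K L) := by
    apply Polynomial.eq_of_monic_of_dvd_of_natDegree_le (minpoly.monic hint)
      (Polynomial.cyclotomic.monic l K) hdvd
    rw [hdeg, Polynomial.natDegree_cyclotomic, Nat.totient_prime hl]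
  rw [heq]
  exact minpoly.irreducible hint

end THA

end L

theorem TH_irreducible_cyclotomic (l : ℕ) [Fact l.Prime] (hlp : l ≠ p) :
    Irreducible (Polynomial.cyclotomic l K) := by
  have hl : l.Prime := Fact.out
  have : NeZero l := ⟨hl.ne_zero⟩
  have : NumberField (CyclotomicField l K) := IsCyclotomicExtension.numberField {l} K _
  exact THA.irreducible_aux p K l (CyclotomicField l K) hlp

section L

variable (l : ℕ) [Fact l.Prime] (L : Type) [Field L] [NumberField L] [Algebra K L]
  [IsCyclotomicExtension {l} K L]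

theorem TH_exists_gen (hlp : l ≠ p) :
    ∃ (s : ℕ) (τ : Gal(L/K)), (s : ZMod l) ≠ 0 ∧ (∀ k : ℕ, (s : ZMod l) ^ k = 1 → l - 1 ∣ k) ∧
      (∀ σ : Gal(L/K), σ ∈ Subgroup.zpowers τ) ∧ Nat.card Gal(L/K) = l - 1 ∧
      τ • xiInt K l L = xiInt K l L ^ s := by
  have hl : l.Prime := Fact.out
  have : NeZero l := ⟨hl.ne_zero⟩
  have hirr := TH_irreducible_cyclotomic p K l hlp
  let e := IsCyclotomicExtension.autEquivPow L hirr
  obtain ⟨g, hg⟩ := IsCyclic.exists_generator (α := (ZMod l)ˣ)
  have hcardU : Nat.card (ZMod l)ˣ = l - 1 := by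
    rw [Nat.card_eq_fintype_card, ZMod.card_units_eq_totient, Nat.totient_prime hl]
  have hord : orderOf g = l - 1 := by
    rw [orderOf_eq_card_of_forall_mem_zpowers hg, hcardU]
  refine ⟨(g : ZMod l).val, e.symm g, ?_, ?_, ?_, ?_, ?_⟩
  · rw [ZMod.natCast_zmod_val]
    exact g.ne_zero
  · intro k hk
    rw [ZMod.natCast_zmod_val] at hk
    rw [← hord]
    apply orderOf_dvd_of_pow_eq_one
    ext
    simpa using hk
  · intro σ
    obtain ⟨n, hn⟩ := Subgroup.mem_zpowers_iff.mp (hg (e σ))
    apply Subgroup.mem_zpowers_iff.mpr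
    refine ⟨n, ?_⟩
    rw [← map_zpow, hn, MulEquiv.symm_apply_apply]
  · rw [Nat.card_congr e.toEquiv, hcardU]
  · apply RingOfIntegers.ext
    have hspec := (IsCyclotomicExtension.zeta_spec l K L).autToPow_spec K (e.symm g)
    have he : (IsCyclotomicExtension.zeta_spec l K L).autToPow K (e.symm g) = g :=
      e.apply_symm_apply g
    rw [he] at hspec
    have h1 : ((e.symm g • xiInt K l L : 𝓞 L) : L) = (e.symm g) ((xiInt K l L : 𝓞 L) : L) := rfl
    have h2 : ((xiInt K l L : 𝓞 L) : L) = IsCyclotomicExtension.zeta l K L := rfl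
    rw [h1, h2, ← hspec]
    simp [h2]

end L

end TH

end Fermat.Agent.S14
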