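import Fermat.Agent.S14.TH.Defs

/-! S14 / TH-C : Hilbert 90 and `κ = N y`. -/

set_option autoImplicit false

namespace Fermat.Agent.S14

open NumberField JacobiSumStickelberger
open scoped NumberField nonZeroDivisors

variable (p : ℕ) [Fact p.Prime] (K : Type) [Field K] [NumberField K]
  [IsCyclotomicExtension {p} ℚ K]
variable (l : ℕ) [Fact l.Prime] (L : Type) [Field L] [NumberField L] [Algebra K L]
  [IsCyclotomicExtension {l} K L]

namespace THC

variable {K L}

omit [IsCyclotomicExtension {l} K L] [NumberField K] [NumberField L] in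
theorem coe_smul (σ : Gal(L/K)) (y : 𝓞 L) : ((σ • y : 𝓞 L) : L) = σ (y : L) := rfl

omit [IsCyclotomicExtension {l} K L] [NumberField K] [NumberField L] in
theorem associated_smul (σ : Gal(L/K)) {a b : 𝓞 L} (h : Associated a b) :
    Associated (σ • a) (σ • b) :=
  h.map (MulSemiringAction.toRingHom Gal(L/K) (𝓞 L) σ : 𝓞 L →* 𝓞 L)

/-- the subgroup of automorphisms preserving the ideal `(y)` -/
def stab (y : 𝓞 L) : Subgroup Gal(L/K) where
  carrier := {σ | Associated (σ • y) y}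
  one_mem' := by
    show Associated ((1 : Gal(L/K)) • y) y
    rw [one_smul]
  mul_mem' := by
    intro a b ha hb
    show Associated ((a * b) • y) y
    rw [mul_smul]
    exact (associated_smul a hb).trans ha
  inv_mem' := by
    intro a ha
    show Associated (a⁻¹ • y) y
    have := associated_smul a⁻¹ ha
    rw [inv_smul_smul] at this
    exact this.symm

end THC

set_option linter.unusedSectionVars false in
open THC in
omit [IsCyclotomicExtension {p} ℚ K] in
theorem TH_exists_kappa (τ : Gal(L/K)) (hτ : ∀ σ : Gal(L/K), σ ∈ Subgroup.zpowers τ)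
    (hcard : Nat.card Gal(L/K) = l - 1) (ε : (𝓞 L)ˣ)
    (hε : Algebra.norm K ((ε : 𝓞 L) : L) = 1) :
    ∃ (y : 𝓞 L) (κ : 𝓞 K), y ≠ 0 ∧ κ ≠ 0 ∧ (ε : 𝓞 L) * τ • y = y ∧
      Ideal.span {algebraMap (𝓞 K) (𝓞 L) κ} = Ideal.span {y} ^ (l - 1) := by
  classical
  have : IsGalois K L := IsCyclotomicExtension.isGalois {l} K L
  have : FiniteDimensional K L := IsCyclotomicExtension.finiteDimensional {l} K L
  have : IsCyclic Gal(L/K) := ⟨τ, hτ⟩
  obtain ⟨y0, hy0⟩ := groupCohomology.exists_div_of_norm_eq_one hτ hε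
  -- clear denominators
  have halg : IsAlgebraic ℤ (y0 : L) :=
    (IsFractionRing.isAlgebraic_iff ℤ ℚ L).mpr (Algebra.IsAlgebraic.isAlgebraic _)
  obtain ⟨n, hn0, hn⟩ := halg.exists_integral_multiple
  let y : 𝓞 L := ⟨n • (y0 : L), hn⟩
  have hycoe : (y : L) = n • (y0 : L) := rfl
  have hy_ne : y ≠ 0 := by
    intro h
    have h1 : (y : L) = 0 := by rw [h]; rfl
    rw [hycoe, zsmul_eq_mul] at h1
    rcases mul_eq_zero.mp h1 with h2 | h2
    · exact hn0 (by exact_mod_cast h2)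
    · exact y0.ne_zero h2
  have hτy0 : τ (y0 : L) ≠ 0 := by
    simp
  have hyτ : (ε : 𝓞 L) * τ • y = y := by
    apply RingOfIntegers.ext
    have e1 : (((ε : 𝓞 L) * τ • y : 𝓞 L) : L) = ((ε : 𝓞 L) : L) * ((τ • y : 𝓞 L) : L) :=
      map_mul (algebraMap (𝓞 L) L) _ _
    rw [e1, coe_smul, hycoe, ← hy0, map_zsmul]
    simp only [zsmul_eq_mul]
    field_simp
  have hstab : ∀ σ : Gal(L/K), Associated (σ • y) y := by
    intro σ
    have h1 : τ ∈ stab (K := K) y := ⟨ε, by rw [mul_comm]; exact hyτ⟩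
    exact (Subgroup.zpowers_le.mpr h1) (hτ σ)
  let κ : 𝓞 K := Algebra.intNorm (𝓞 K) (𝓞 L) y
  have hκ : algebraMap (𝓞 K) (𝓞 L) κ = ∏ σ : Gal(L/K), σ • y := by
    apply RingOfIntegers.ext
    have h1 : algebraMap (𝓞 K) K κ = Algebra.norm K (algebraMap (𝓞 L) L y) :=
      Algebra.algebraMap_intNorm (A := 𝓞 K) (K := K) (L := L) (B := 𝓞 L) y
    have h2 : ((algebraMap (𝓞 K) (𝓞 L) κ : 𝓞 L) : L) = algebraMap K L (algebraMap (𝓞 K) K κ) := rfl
    have h3 : ((∏ σ : Gal(L/K), σ • y : 𝓞 L) : L) = ∏ σ : Gal(L/K), ((σ • y : 𝓞 L) : L) :=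
      map_prod (algebraMap (𝓞 L) L) _ _
    rw [h2, h1, Algebra.norm_eq_prod_automorphisms, h3]
    rfl
  have hassoc : Associated (algebraMap (𝓞 K) (𝓞 L) κ) (y ^ (l - 1)) := by
    rw [hκ]
    have := Associated.prod Finset.univ (fun σ : Gal(L/K) => σ • y) (fun _ => y)
      (fun σ _ => hstab σ)
    rwa [Finset.prod_const, Finset.card_univ, ← Nat.card_eq_fintype_card, hcard] at this
  refine ⟨y, κ, hy_ne, ?_, hyτ, ?_⟩
  · intro h
    rw [h, map_zero] at hassoc
    exact pow_ne_zero _ hy_ne (hassoc.symm.eq_zero_iff.mpr rfl |> fun h => h)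
  · rw [Ideal.span_singleton_pow]
    exact Ideal.span_singleton_eq_span_singleton.mpr hassoc

end Fermat.Agent.S14
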