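/-
S14 / TH-E, auxiliary facts E1, E2.
-/
import Fermat.Agent.S14.TH.Defs

set_option autoImplicit false

namespace Fermat.Agent.S14

open NumberField
open scoped NumberField nonZeroDivisors

variable (p : ℕ) [Fact p.Prime] (K : Type) [Field K] [NumberField K]
  [IsCyclotomicExtension {p} ℚ K]
variable (l : ℕ) [Fact l.Prime] (L : Type) [Field L] [NumberField L] [Algebra K L]
  [IsCyclotomicExtension {l} K L]

namespace THE

omit [NumberField K] [NumberField L] in
theorem xiInt_isPrimitiveRoot : IsPrimitiveRoot (xiInt K l L) l :=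
  (IsCyclotomicExtension.zeta_spec l K L).toInteger_isPrimitiveRoot

omit [NumberField K] [NumberField L] in
/-- (E2) `(l) = (λ)^(l-1)` in `𝓞 L`. -/
theorem span_l_eq : Ideal.span {(l : 𝓞 L)} = Ideal.span {lamInt K l L} ^ (l - 1) := by
  have h := IsCyclotomicExtension.Rat.associated_zeta_sub_one_pow_prime l
    (IsCyclotomicExtension.zeta_spec l K L)
  rw [Ideal.span_singleton_pow, Ideal.span_singleton_eq_span_singleton]
  refine h.symm.trans ?_
  have : lamInt K l L = -((IsCyclotomicExtension.zeta_spec l K L).toInteger - 1) := by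
    simp [lamInt, xiInt]
  rw [this]
  exact (Associated.refl _).neg_right.pow_pow

omit [NumberField K] [NumberField L] [IsCyclotomicExtension {l} K L] in
theorem coe_smul (τ : Gal(L/K)) (x : 𝓞 L) : ((τ • x : 𝓞 L) : L) = τ (x : L) := rfl

omit [IsCyclotomicExtension {l} K L] in
theorem smul_algebraMap' (τ : Gal(L/K)) (z : 𝓞 K) :
    τ • (algebraMap (𝓞 K) (𝓞 L) z) = algebraMap (𝓞 K) (𝓞 L) z := by
  apply RingOfIntegers.ext
  rw [coe_smul]
  exact τ.commutes (z : K)

omit [IsCyclotomicExtension {l} K L] in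
theorem zetaL_isPrimitiveRoot : IsPrimitiveRoot (zetaL p K L) p := by
  have h : IsPrimitiveRoot (zetaInt p K) p :=
    (IsCyclotomicExtension.zeta_spec p ℚ K).toInteger_isPrimitiveRoot
  exact h.map_of_injective (FaithfulSMul.algebraMap_injective (𝓞 K) (𝓞 L))

theorem mul_isPrimitiveRoot (hlp : l ≠ p) :
    IsPrimitiveRoot (zetaL p K L * xiInt K l L) (p * l) := by
  have h1 := zetaL_isPrimitiveRoot p K L
  have h2 := xiInt_isPrimitiveRoot K l L
  have hcop : Nat.Coprime p l :=
    (Nat.coprime_primes (Fact.out : p.Prime) (Fact.out : l.Prime)).mpr (Ne.symm hlp)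
  have ho : orderOf (zetaL p K L * xiInt K l L) = p * l := by
    rw [(Commute.all _ _).orderOf_mul_eq_mul_orderOf_of_coprime
      (by rw [← h1.eq_orderOf, ← h2.eq_orderOf]; exact hcop), ← h1.eq_orderOf, ← h2.eq_orderOf]
  rw [← ho]
  exact IsPrimitiveRoot.orderOf _

/-- (E1) `τ` acts trivially on `𝓞 L / (λ)`. -/
theorem smul_sub_mem (hcyc : IsCyclotomicExtension {p * l} ℚ L) (hlp : l ≠ p) (s : ℕ)
    (τ : Gal(L/K)) (hτξ : τ • xiInt K l L = xiInt K l L ^ s) (x : 𝓞 L) :
    τ • x - x ∈ Ideal.span {lamInt K l L} := by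
  have hμ := mul_isPrimitiveRoot p K l L hlp
  have hμ' : IsPrimitiveRoot ((zetaL p K L * xiInt K l L : 𝓞 L) : L) (p * l) :=
    hμ.map_of_injective RingOfIntegers.coe_injective
  have htop := IsCyclotomicExtension.Rat.adjoin_singleton_eq_top hμ'
  have hto : hμ'.toInteger = zetaL p K L * xiInt K l L := RingOfIntegers.ext rfl
  rw [hto] at htop
  have hx : x ∈ Algebra.adjoin ℤ {zetaL p K L * xiInt K l L} := by rw [htop]; trivial
  induction hx using Algebra.adjoin_induction with
  | mem y hy =>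
    rw [Set.mem_singleton_iff] at hy
    subst hy
    rw [smul_mul', hτξ, zetaL, smul_algebraMap', ← mul_sub]
    refine Ideal.mul_mem_left _ _ ?_
    rw [Ideal.mem_span_singleton]
    have h1 : xiInt K l L - 1 ∣ xiInt K l L ^ s - 1 := by
      simpa using sub_dvd_pow_sub_pow (xiInt K l L) 1 s
    have h2 : lamInt K l L ∣ xiInt K l L ^ s - 1 := by
      rw [lamInt, ← neg_sub, neg_dvd]; exact h1
    have h3 : xiInt K l L ^ s - xiInt K l L = (xiInt K l L ^ s - 1) + lamInt K l L := by
      rw [lamInt]; ring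
    rw [h3]
    exact dvd_add h2 dvd_rfl
  | algebraMap r =>
    have : τ • (algebraMap ℤ (𝓞 L) r) = algebraMap ℤ (𝓞 L) r := by
      apply RingOfIntegers.ext
      rw [coe_smul]
      simp
    rw [this, sub_self]
    exact Ideal.zero_mem _
  | add y z _ _ hy hz =>
    have : τ • (y + z) - (y + z) = (τ • y - y) + (τ • z - z) := by rw [smul_add]; ring
    rw [this]
    exact Ideal.add_mem _ hy hz
  | mul y z _ _ hy hz =>
    have : τ • (y * z) - y * z = (τ • y) * (τ • z - z) + z * (τ • y - y) := by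
      rw [smul_mul']; ring
    rw [this]
    exact Ideal.add_mem _ (Ideal.mul_mem_left _ _ hz) (Ideal.mul_mem_left _ _ hy)

end THE

end Fermat.Agent.S14
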