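/-
S14 / TH-E : the local computation at the primes above `l` (helper99's version).
-/
import Fermat.Agent.S14.TH.Count
import Fermat.Agent.S14.TH.LocalAux

set_option autoImplicit false

namespace Fermat.Agent.S14

open NumberField UniqueFactorizationMonoid
open scoped NumberField nonZeroDivisors

namespace THE

/-- General Dedekind lemma (E4): if `y` and `z` have the same multiplicity at the prime `𝔏`, there
are `b c ∉ 𝔏` with `c * y = z * b`. -/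
theorem exists_mul_eq_mul {R : Type*} [CommRing R] [IsDedekindDomain R] (𝔏 : Ideal R)
    [h𝔏 : 𝔏.IsPrime] (h0 : 𝔏 ≠ ⊥) (y z : R) (hy : y ≠ 0) (hz : z ≠ 0)
    (hc : (normalizedFactors (Ideal.span {y})).count 𝔏 =
      (normalizedFactors (Ideal.span {z})).count 𝔏) :
    ∃ b c : R, b ∉ 𝔏 ∧ c ∉ 𝔏 ∧ c * y = z * b := by
  classical
  have hy' : Ideal.span {y} ≠ ⊥ := by simpa [Ideal.span_singleton_eq_bot] using hy
  have hz' : Ideal.span {z} ≠ ⊥ := by simpa [Ideal.span_singleton_eq_bot] using hz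
  have hmax : 𝔏.IsMaximal := h𝔏.isMaximal h0
  obtain ⟨𝔞, h𝔞, hy𝔞⟩ := Ideal.eq_prime_pow_mul_coprime hy' 𝔏
  obtain ⟨𝔟, h𝔟, hz𝔟⟩ := Ideal.eq_prime_pow_mul_coprime hz' 𝔏
  rw [hc] at hy𝔞
  set n := (normalizedFactors (Ideal.span {z})).count 𝔏 with hn
  -- choose `c ∈ 𝔟 ∖ 𝔏`
  have h𝔟' : ¬ 𝔟 ≤ 𝔏 := by
    intro hle
    rw [sup_of_le_left hle] at h𝔟
    exact h𝔏.ne_top h𝔟
  have h𝔞' : ¬ 𝔞 ≤ 𝔏 := by
    intro hle
    rw [sup_of_le_left hle] at h𝔞
    exact h𝔏.ne_top h𝔞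
  obtain ⟨c, hc𝔟, hc𝔏⟩ := SetLike.not_le_iff_exists.mp h𝔟'
  -- `c * y ∈ 𝔟 * (𝔏^n * 𝔞) = (z) * 𝔞`
  have hmem : c * y ∈ Ideal.span {z} * 𝔞 := by
    have h1 : c * y ∈ 𝔟 * Ideal.span {y} :=
      Ideal.mul_mem_mul hc𝔟 (Ideal.mem_span_singleton_self y)
    have h2 : 𝔟 * Ideal.span {y} = Ideal.span {z} * 𝔞 := by
      rw [hy𝔞, hz𝔟]; ring
    rwa [h2] at h1
  rw [Ideal.mem_span_singleton_mul] at hmem
  obtain ⟨b, hb𝔞, hb⟩ := hmem
  refine ⟨b, c, ?_, hc𝔏, hb.symm⟩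
  -- `b ∉ 𝔏` by comparing multiplicities
  intro hb𝔏
  have hc0 : c ≠ 0 := fun h => hc𝔏 (h ▸ 𝔏.zero_mem)
  have hb0 : b ≠ 0 := by
    rintro rfl
    rw [mul_zero] at hb
    exact mul_ne_zero hc0 hy hb.symm
  have hsc : Ideal.span {c} ≠ ⊥ := by simpa [Ideal.span_singleton_eq_bot] using hc0
  have hsb : Ideal.span {b} ≠ ⊥ := by simpa [Ideal.span_singleton_eq_bot] using hb0
  have hcc : (normalizedFactors (Ideal.span {c})).count 𝔏 = 0 := by
    rw [Multiset.count_eq_zero, Ideal.mem_normalizedFactors_iff hsc]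
    rintro ⟨-, hle⟩
    exact hc𝔏 (hle (Ideal.mem_span_singleton_self c))
  have hcb : 0 < (normalizedFactors (Ideal.span {b})).count 𝔏 := by
    rw [Multiset.count_pos, Ideal.mem_normalizedFactors_iff hsb]
    exact ⟨h𝔏, (Ideal.span_singleton_le_iff_mem _).mpr hb𝔏⟩
  have heq : Ideal.span {c} * Ideal.span {y} = Ideal.span {z} * Ideal.span {b} := by
    rw [Ideal.span_singleton_mul_span_singleton, Ideal.span_singleton_mul_span_singleton, hb]
  have := congrArg (fun I => (normalizedFactors I).count 𝔏) heq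
  simp only [normalizedFactors_mul hsc hy', normalizedFactors_mul hz' hsb, Multiset.count_add]
    at this
  omega

end THE

variable (p : ℕ) [Fact p.Prime] (K : Type) [Field K] [NumberField K]
  [IsCyclotomicExtension {p} ℚ K]
variable (l : ℕ) [Fact l.Prime] (L : Type) [Field L] [NumberField L] [Algebra K L]
  [IsCyclotomicExtension {l} K L]

namespace THE

/-- (E3) `l` is unramified in `K`. -/
theorem count_l_eq_one (hlp : l ≠ p) (𝔮 : Ideal (𝓞 K)) [h𝔮 : 𝔮.IsPrime] (hl : (l : 𝓞 K) ∈ 𝔮) :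
    (normalizedFactors (Ideal.span {(l : 𝓞 K)})).count 𝔮 = 1 := by
  have hlpr : l.Prime := Fact.out
  have hpp : p.Prime := Fact.out
  have hmax : (Ideal.span {(l : ℤ)}).IsMaximal :=
    (Ideal.span_singleton_prime (by exact_mod_cast hlpr.ne_zero)).mpr
      (Nat.prime_iff_prime_int.mp hlpr) |>.isMaximal (by
        simpa [Ideal.span_singleton_eq_bot] using hlpr.ne_zero)
  have hover : 𝔮.LiesOver (Ideal.span {(l : ℤ)}) := by
    constructor
    refine hmax.eq_of_le (Ideal.IsPrime.under ℤ 𝔮).ne_top ?_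
    rw [Ideal.span_singleton_le_iff_mem, Ideal.under_def, Ideal.mem_comap]
    simpa using hl
  have h1 := IsCyclotomicExtension.Rat.ramificationIdx_eq_of_not_dvd (m := p) l K 𝔮
    (fun h => hlp ((Nat.prime_dvd_prime_iff_eq hlpr hpp).mp h))
  have hmap : (Ideal.span {(l : ℤ)}).map (algebraMap ℤ (𝓞 K)) = Ideal.span {(l : 𝓞 K)} := by
    rw [Ideal.map_span, Set.image_singleton]; simp
  have hne : (Ideal.span {(l : ℤ)}).map (algebraMap ℤ (𝓞 K)) ≠ ⊥ := by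
    rw [hmap]
    simpa [Ideal.span_singleton_eq_bot] using hlpr.ne_zero
  rw [Ideal.IsDedekindDomain.ramificationIdx_eq_normalizedFactors_count (Ideal.span {(l : ℤ)}) 𝔮
    hne, hmap] at h1
  exact h1

end THE

theorem TH_local_aux (hcyc : IsCyclotomicExtension {p * l} ℚ L) (hlp : l ≠ p) (s : ℕ)
    (τ : Gal(L/K)) (hτξ : τ • xiInt K l L = xiInt K l L ^ s) (ε : (𝓞 L)ˣ)
    (hεη : (ε : 𝓞 L) - algebraMap (𝓞 K) (𝓞 L) (eta p K) ∈ Ideal.span {lamInt K l L})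
    (y : 𝓞 L) (κ : 𝓞 K) (hκ : κ ≠ 0) (hyτ : (ε : 𝓞 L) * τ • y = y)
    (hy : Ideal.span {algebraMap (𝓞 K) (𝓞 L) κ} = Ideal.span {y} ^ (l - 1))
    (𝔮 : Ideal (𝓞 K)) (h𝔮 : 𝔮.IsPrime) (hl : (l : 𝓞 K) ∈ 𝔮) :
    eta p K * (s : 𝓞 K) ^ cnt K 𝔮 κ - 1 ∈ 𝔮 := by
  have hlpr : l.Prime := Fact.out
  have hl1 : 0 < l - 1 := by have := hlpr.two_le; omega
  have h0 : 𝔮 ≠ ⊥ := by
    rintro rfl
    rw [Ideal.mem_bot] at hl
    exact hlpr.ne_zero (by exact_mod_cast hl)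
  have hqm : 𝔮.IsMaximal := h𝔮.isMaximal h0
  obtain ⟨𝔏, h𝔏m, h𝔏o⟩ := Ideal.exists_maximal_ideal_liesOver_of_isIntegral 𝔮 (S := 𝓞 L)
  have h𝔏p : 𝔏.IsPrime := h𝔏m.isPrime
  have hlL : (l : 𝓞 L) ∈ 𝔏 := by
    have : (l : 𝓞 K) ∈ 𝔏.under (𝓞 K) := by rw [← Ideal.over_def 𝔏 𝔮]; exact hl
    rw [Ideal.under_def, Ideal.mem_comap, map_natCast] at this
    exact this
  have h𝔏0 : 𝔏 ≠ ⊥ := by
    rintro rfl
    rw [Ideal.mem_bot] at hlL
    exact hlpr.ne_zero (by exact_mod_cast hlL)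
  set lam := lamInt K l L with hlam
  set r := cnt K 𝔮 κ with hr
  have hspanl : Ideal.span {(l : 𝓞 L)} = Ideal.span {lam} ^ (l - 1) := THE.span_l_eq K l L
  have hlamL : lam ∈ 𝔏 := by
    have h1 : lam ^ (l - 1) ∈ 𝔏 := by
      have : Ideal.span {lam} ^ (l - 1) ≤ 𝔏 := by
        rw [← hspanl, Ideal.span_singleton_le_iff_mem]; exact hlL
      exact this (Ideal.pow_mem_pow (Ideal.mem_span_singleton_self lam) _)
    exact h𝔏p.mem_of_pow_mem _ h1
  have hlam0 : lam ≠ 0 := by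
    intro h
    rw [h, Ideal.span_singleton_eq_bot.mpr rfl, ← Ideal.zero_eq_bot, zero_pow hl1.ne',
      Ideal.zero_eq_bot, Ideal.span_singleton_eq_bot] at hspanl
    exact hlpr.ne_zero (by exact_mod_cast hspanl)
  have hy0 : y ≠ 0 := by
    rintro rfl
    rw [Ideal.span_singleton_eq_bot.mpr rfl, ← Ideal.zero_eq_bot, zero_pow hl1.ne',
      Ideal.zero_eq_bot, Ideal.span_singleton_eq_bot] at hy
    exact hκ ((FaithfulSMul.algebraMap_injective (𝓞 K) (𝓞 L)) (by rw [hy, map_zero]))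
  -- counting
  have hIl : Ideal.span {(l : 𝓞 K)} ≠ ⊥ := by
    simpa [Ideal.span_singleton_eq_bot] using hlpr.ne_zero
  have hIκ : Ideal.span {κ} ≠ ⊥ := by simpa [Ideal.span_singleton_eq_bot] using hκ
  have c1 := TH_count_map K L 𝔮 𝔏 h0 (Ideal.span {(l : 𝓞 K)}) hIl
  rw [THE.count_l_eq_one p K l hlp 𝔮 hl, mul_one, Ideal.map_span, Set.image_singleton,
    map_natCast, hspanl, normalizedFactors_pow, Multiset.count_nsmul] at c1
  have c2 := TH_count_map K L 𝔮 𝔏 h0 (Ideal.span {κ}) hIκ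
  rw [Ideal.map_span, Set.image_singleton, hy, normalizedFactors_pow, Multiset.count_nsmul,
    ← c1] at c2
  have c3 : (normalizedFactors (Ideal.span {y})).count 𝔏 =
      (normalizedFactors (Ideal.span {lam ^ r})).count 𝔏 := by
    rw [← Ideal.span_singleton_pow, normalizedFactors_pow, Multiset.count_nsmul]
    have : (l - 1) * (normalizedFactors (Ideal.span {y})).count 𝔏 =
        (l - 1) * (r * (normalizedFactors (Ideal.span {lam})).count 𝔏) := by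
      rw [c2, hr, cnt]; ring
    exact Nat.eq_of_mul_eq_mul_left hl1 this
  obtain ⟨b, c, hb, hc, hbc⟩ := THE.exists_mul_eq_mul 𝔏 h𝔏0 y (lam ^ r) hy0 (pow_ne_zero _ hlam0) c3
  -- the algebra
  set S : 𝓞 L := ∑ i ∈ Finset.range s, xiInt K l L ^ i with hS
  have hτlam : τ • lam = lam * S := by
    rw [hlam, lamInt, smul_sub, smul_one, hτξ, hS, mul_neg_geom_sum]
  have hτbc : (τ • c) * (τ • y) = (lam * S) ^ r * (τ • b) := by
    rw [← smul_mul', hbc, smul_mul', smul_pow', hτlam]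
  have key : (τ • c) * b = (ε : 𝓞 L) * c * S ^ r * (τ • b) := by
    apply mul_left_cancel₀ (pow_ne_zero r hlam0)
    calc lam ^ r * ((τ • c) * b) = (τ • c) * (c * y) := by rw [hbc]; ring
      _ = (τ • c) * (c * ((ε : 𝓞 L) * τ • y)) := by rw [hyτ]
      _ = (ε : 𝓞 L) * c * ((τ • c) * (τ • y)) := by ring
      _ = lam ^ r * ((ε : 𝓞 L) * c * S ^ r * (τ • b)) := by rw [hτbc]; ring
  -- reduce modulo `𝔏`
  have hle : Ideal.span {lam} ≤ 𝔏 := (Ideal.span_singleton_le_iff_mem _).mpr hlamL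
  let φ := Ideal.Quotient.mk 𝔏
  have hφτ : ∀ x : 𝓞 L, φ (τ • x) = φ x := fun x =>
    (Ideal.Quotient.mk_eq_mk_iff_sub_mem _ _).mpr
      (hle (THE.smul_sub_mem p K l L hcyc hlp s τ hτξ x))
  have hφξ : φ (xiInt K l L) = 1 := by
    have : φ 1 = φ (xiInt K l L) := (Ideal.Quotient.mk_eq_mk_iff_sub_mem _ _).mpr hlamL
    rw [← this, map_one]
  have hφS : φ S = (s : 𝓞 L ⧸ 𝔏) := by
    rw [hS, map_sum]
    simp [hφξ]
  have hφε : φ (ε : 𝓞 L) = φ (algebraMap (𝓞 K) (𝓞 L) (eta p K)) :=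
    (Ideal.Quotient.mk_eq_mk_iff_sub_mem _ _).mpr (hle hεη)
  have hφb : φ b ≠ 0 := fun h => hb (Ideal.Quotient.eq_zero_iff_mem.mp h)
  have hφc : φ c ≠ 0 := fun h => hc (Ideal.Quotient.eq_zero_iff_mem.mp h)
  have hk := congrArg φ key
  simp only [map_mul, map_pow, hφτ, hφS, hφε] at hk
  have hfin : φ (algebraMap (𝓞 K) (𝓞 L) (eta p K)) * (s : 𝓞 L ⧸ 𝔏) ^ r = 1 := by
    have h2 : φ c * φ b * (φ (algebraMap (𝓞 K) (𝓞 L) (eta p K)) * (s : 𝓞 L ⧸ 𝔏) ^ r) =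
        φ c * φ b * 1 := by
      rw [mul_one]
      conv_rhs => rw [hk]
      ring
    exact mul_left_cancel₀ (mul_ne_zero hφc hφb) h2
  have hmem : algebraMap (𝓞 K) (𝓞 L) (eta p K * (s : 𝓞 K) ^ r - 1) ∈ 𝔏 := by
    rw [← Ideal.Quotient.eq_zero_iff_mem]
    change φ _ = 0
    rw [map_sub, map_mul, map_pow, map_natCast, map_one, map_sub, map_mul, map_pow, map_natCast,
      map_one, hfin, sub_self]
  rw [Ideal.over_def 𝔏 𝔮, Ideal.under_def, Ideal.mem_comap]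
  exact hmem

end Fermat.Agent.S14
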