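/-
S14 / TH-I: a degree-one prime `P ∤ p` of `ℚ(ζ_p)` has norm `≡ 1 mod p`; conjugate ideals.
-/
import Fermat.Agent.S14.TH.Defs

set_option autoImplicit false

namespace Fermat.Agent.S14

open NumberField JacobiSumStickelberger
open scoped NumberField nonZeroDivisors

variable (p : ℕ) [Fact p.Prime] (K : Type) [Field K] [NumberField K]
  [IsCyclotomicExtension {p} ℚ K]

namespace THI

/-- `ζ - 1 ∉ P` when `P` is a prime whose norm is a prime different from `p`. -/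
theorem zeta_sub_one_not_mem (P : Ideal (𝓞 K)) (hP : P.IsPrime)
    (hl : (Ideal.absNorm P).Prime) (hlp : Ideal.absNorm P ≠ p) :
    zetaInt p K - 1 ∉ P := by
  intro hmem
  have hp : (p : 𝓞 K) ∈ P := by
    have hdvd : zetaInt p K - 1 ∣ (p : 𝓞 K) :=
      (IsCyclotomicExtension.zeta_spec p ℚ K).toInteger_sub_one_dvd_prime'
    exact Ideal.mem_of_dvd P hdvd hmem
  have hlmem : ((Ideal.absNorm P : ℕ) : 𝓞 K) ∈ P := Ideal.absNorm_mem P
  have hcop : Nat.Coprime (Ideal.absNorm P) p :=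
    (Nat.coprime_primes hl (Fact.out : p.Prime)).mpr hlp
  have h1 : (1 : 𝓞 K) ∈ P := by
    have hb := Nat.isCoprime_iff_coprime.mpr hcop
    obtain ⟨a, b, hab⟩ := hb
    have : ((a * (Ideal.absNorm P : ℤ) + b * (p : ℤ) : ℤ) : 𝓞 K) = 1 := by
      rw [hab]; simp
    rw [← this]
    push_cast
    exact P.add_mem (P.mul_mem_left _ hlmem) (P.mul_mem_left _ hp)
  exact hP.ne_top ((Ideal.eq_top_iff_one P).mpr h1)

end THI

theorem TH_dvd_sub_one (P : Ideal (𝓞 K)) (hP : P.IsPrime) (hl : (Ideal.absNorm P).Prime)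
    (hlp : Ideal.absNorm P ≠ p) : p ∣ Ideal.absNorm P - 1 := by
  have hP0 : P ≠ ⊥ := by
    rintro rfl
    rw [Ideal.absNorm_bot] at hl
    exact Nat.not_prime_zero hl
  haveI : P.IsMaximal := hP.isMaximal hP0
  letI : Field (𝓞 K ⧸ P) := Ideal.Quotient.field P
  haveI : Finite (𝓞 K ⧸ P) := Ideal.finiteQuotientOfFreeOfNeBot P hP0
  letI : Fintype (𝓞 K ⧸ P) := Fintype.ofFinite _
  have hcard : Fintype.card (𝓞 K ⧸ P) = Ideal.absNorm P := by
    rw [Ideal.absNorm_apply, Submodule.cardQuot_apply, Nat.card_eq_fintype_card]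
  set z : 𝓞 K ⧸ P := Ideal.Quotient.mk P (zetaInt p K) with hz
  have hzp : z ^ p = 1 := by
    rw [hz, ← map_pow]
    have : zetaInt p K ^ p = 1 :=
      ((IsCyclotomicExtension.zeta_spec p ℚ K).toInteger_isPrimitiveRoot).pow_eq_one
    rw [this, map_one]
  have hz1 : z ≠ 1 := by
    intro h
    apply THI.zeta_sub_one_not_mem p K P hP hl hlp
    rw [← Ideal.Quotient.eq_zero_iff_mem, map_sub, map_one, ← hz, h, sub_self]
  have hord : orderOf z = p := orderOf_eq_prime hzp hz1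
  have hz0 : z ≠ 0 := by
    intro h
    rw [h, zero_pow (Fact.out : p.Prime).ne_zero] at hzp
    exact zero_ne_one hzp
  have := FiniteField.pow_card_sub_one_eq_one z hz0
  rw [hcard] at this
  rw [← hord]
  exact orderOf_dvd_of_pow_eq_one this

theorem TH_sigIdeal (P : Ideal (𝓞 K)) (hP : P.IsPrime) (d : (ZMod p)ˣ) :
    (sigIdeal p K d P).IsPrime ∧ ((Ideal.absNorm P : ℕ) : 𝓞 K) ∈ sigIdeal p K d P := by
  refine ⟨?_, ?_⟩
  · exact Ideal.map_isPrime_of_equiv (sigInt p K d)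
  · have h := Ideal.mem_map_of_mem ((sigInt p K d : 𝓞 K ≃+* 𝓞 K) : 𝓞 K →+* 𝓞 K)
      (Ideal.absNorm_mem P)
    rwa [map_natCast] at h

end Fermat.Agent.S14
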