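import Fermat.Agent.S14.TH.Defs

set_option autoImplicit false

namespace Fermat.Agent.S14

open NumberField JacobiSumStickelberger
open scoped NumberField nonZeroDivisors

namespace THF

/-- Abstract finite-field core of `TH_residue`. -/
theorem field_core {F : Type*} [Field F] [Finite F] (p m : ℕ) (hm : 0 < m)
    (hcard : Nat.card F - 1 = p * m) (g : F) (hg0 : g ≠ 0)
    (hg : ∀ k : ℕ, g ^ k = 1 → Nat.card F - 1 ∣ k) :
    (∀ x : F, x ≠ 0 → x ^ (p * m) = 1) ∧ (∀ x : F, x ≠ 0 → ∃ j : ℕ, x = g ^ j) ∧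
      (∀ a b : ℕ, (g ^ m) ^ a = (g ^ m) ^ b → a ≡ b [MOD p]) := by
  classical
  have : Fintype F := Fintype.ofFinite F
  have hc : Fintype.card F - 1 = p * m := by rw [← Nat.card_eq_fintype_card]; exact hcard
  refine ⟨?_, ?_, ?_⟩
  · intro x hx
    rw [← hc]
    exact FiniteField.pow_card_sub_one_eq_one x hx
  · intro x hx
    let gU : Fˣ := Units.mk0 g hg0
    have hord : orderOf gU = Fintype.card Fˣ := by
      rw [Fintype.card_units]
      apply Nat.dvd_antisymm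
      · rw [← Fintype.card_units]
        exact orderOf_dvd_card
      · rw [← Nat.card_eq_fintype_card]
        apply hg
        have h2 : ((gU ^ orderOf gU : Fˣ) : F) = 1 := by rw [pow_orderOf_eq_one]; rfl
        rwa [Units.val_pow_eq_pow_val] at h2
    have htop : Subgroup.zpowers gU = ⊤ := by
      apply Subgroup.eq_top_of_card_eq
      rw [Nat.card_zpowers, hord, Nat.card_eq_fintype_card]
    have hmem : Units.mk0 x hx ∈ Subgroup.zpowers gU := by rw [htop]; trivial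
    rw [← mem_powers_iff_mem_zpowers] at hmem
    obtain ⟨j, hj⟩ := hmem
    refine ⟨j, ?_⟩
    have h2 : ((gU ^ j : Fˣ) : F) = x := by
      have := congrArg Units.val hj
      simpa using this
    rw [Units.val_pow_eq_pow_val] at h2
    exact h2.symm
  · have key : ∀ a b : ℕ, a ≤ b → (g ^ m) ^ a = (g ^ m) ^ b → a ≡ b [MOD p] := by
      intro a b hab h
      obtain ⟨c, rfl⟩ := Nat.exists_eq_add_of_le hab
      rw [pow_add] at h
      have h1 : (g ^ m) ^ c = 1 := by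
        have hne : (g ^ m) ^ a ≠ 0 := pow_ne_zero _ (pow_ne_zero _ hg0)
        exact mul_left_cancel₀ hne (by rw [← h, mul_one])
      rw [← pow_mul] at h1
      have h2 := hg _ h1
      rw [hcard, mul_comm p m] at h2
      have h3 : p ∣ c := Nat.dvd_of_mul_dvd_mul_left hm h2
      exact (Nat.modEq_iff_dvd' (Nat.le_add_right a c)).mpr (by simpa using h3)
    intro a b h
    rcases le_total a b with hab | hab
    · exact key a b hab h
    · exact (key b a hab h.symm).symm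

theorem field_main {F : Type*} [Field F] [Finite F] (p m : ℕ) [Fact p.Prime] (hp3 : 3 ≤ p)
    (hm : 0 < m) (hcard : Nat.card F - 1 = p * m) (g : F) (hg0 : g ≠ 0)
    (hg : ∀ k : ℕ, g ^ k = 1 → Nat.card F - 1 ∣ k) (e : F) (r : (ZMod p)ˣ → ℕ)
    (hrel : ∀ d : (ZMod p)ˣ, ∃ u : F,
      e ^ (((d⁻¹ : (ZMod p)ˣ) : ZMod p).val ^ 2) * u ^ p * g ^ r d = 1)
    (hnp : ¬ ∃ j : ℕ, (g ^ j) ^ p = e) :
    (r 1 : ZMod p) ≠ 0 ∧ ∀ d : (ZMod p)ˣ, (r d : ZMod p) = (d : ZMod p) ^ (p - 3) * r 1 := by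
  obtain ⟨A1, A2, A3⟩ := field_core p m hm hcard g hg0 hg
  have hp1 : Fact (1 < p) := ⟨(Fact.out : p.Prime).one_lt⟩
  -- the relation after applying `x ↦ x ^ m`
  have hχ : ∀ d : (ZMod p)ˣ,
      (e ^ m) ^ (((d⁻¹ : (ZMod p)ˣ) : ZMod p).val ^ 2) * (g ^ m) ^ r d = 1 := by
    intro d
    obtain ⟨u, hu⟩ := hrel d
    have hu0 : u ≠ 0 := by
      rintro rfl
      rw [zero_pow (Fact.out : p.Prime).ne_zero, mul_zero, zero_mul] at hu
      exact zero_ne_one hu
    have h1 := congrArg (fun z => z ^ m) hu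
    simp only [mul_pow, one_pow] at h1
    rw [← pow_mul u, A1 u hu0, mul_one] at h1
    rw [← pow_mul, ← pow_mul, mul_comm m, mul_comm m, pow_mul, pow_mul]
    exact h1
  have h1 : e ^ m * (g ^ m) ^ r 1 = 1 := by
    have := hχ 1
    simpa [ZMod.val_one] using this
  have he0 : e ≠ 0 := by
    rintro rfl
    rw [zero_pow hm.ne', zero_mul] at h1
    exact zero_ne_one h1
  constructor
  · intro h0
    rw [ZMod.natCast_eq_zero_iff] at h0
    obtain ⟨k, hk⟩ := h0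
    have h2 : (g ^ m) ^ r 1 = 1 := by
      rw [hk, ← pow_mul, ← mul_assoc, mul_comm m p, pow_mul, A1 g hg0, one_pow]
    rw [h2, mul_one] at h1
    obtain ⟨j, rfl⟩ := A2 e he0
    rw [← pow_mul] at h1
    have h3 := hg _ h1
    rw [hcard, mul_comm p m, mul_comm j m] at h3
    obtain ⟨j', rfl⟩ := Nat.dvd_of_mul_dvd_mul_left hm h3
    exact hnp ⟨j', by rw [← pow_mul, mul_comm]⟩
  · intro d
    set M := ((d⁻¹ : (ZMod p)ˣ) : ZMod p).val ^ 2 with hM
    have h2 : (e ^ m) ^ M * (g ^ m) ^ (r 1 * M) = 1 := by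
      rw [pow_mul, ← mul_pow, h1, one_pow]
    have h3 : (g ^ m) ^ r d = (g ^ m) ^ (r 1 * M) := by
      have hne : (e ^ m) ^ M ≠ 0 := pow_ne_zero _ (pow_ne_zero _ he0)
      exact mul_left_cancel₀ hne ((hχ d).trans h2.symm)
    have h4 := A3 _ _ h3
    have h5 : ((r d : ℕ) : ZMod p) = ((r 1 * M : ℕ) : ZMod p) :=
      (ZMod.natCast_eq_natCast_iff _ _ _).mpr h4
    rw [h5, hM]
    push_cast
    rw [ZMod.natCast_zmod_val]
    have hd : (d : ZMod p) ≠ 0 := d.ne_zero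
    have h6 : (d : ZMod p) ^ (p - 3) * (d : ZMod p) ^ 2 = 1 := by
      rw [← pow_add, show p - 3 + 2 = p - 1 by omega]
      exact ZMod.pow_card_sub_one_eq_one hd
    rw [mul_comm]
    congr 1
    rw [inv_pow]
    exact (eq_inv_of_mul_eq_one_left h6).symm

end THF

variable (p : ℕ) [Fact p.Prime] (K : Type) [Field K] [NumberField K]
  [IsCyclotomicExtension {p} ℚ K]

theorem TH_residue (hp3 : 3 ≤ p) (P : Ideal (𝓞 K)) (hP : IsGoodPrime p K P)
    (hl1 : p ∣ Ideal.absNorm P - 1) (s : ℕ) (hs0 : (s : ZMod (Ideal.absNorm P)) ≠ 0)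
    (hs : ∀ k : ℕ, (s : ZMod (Ideal.absNorm P)) ^ k = 1 → Ideal.absNorm P - 1 ∣ k)
    (heig : ∀ d : (ZMod p)ˣ, ∃ u : (𝓞 K)ˣ,
      sigInt p K d (eta p K) = eta p K ^ ((d : ZMod p).val ^ 2) * (u : 𝓞 K) ^ p)
    (r : (ZMod p)ˣ → ℕ) (hr : ∀ d, eta p K * (s : 𝓞 K) ^ r d - 1 ∈ sigIdeal p K d P) :
    (r 1 : ZMod p) ≠ 0 ∧ ∀ d : (ZMod p)ˣ, (r d : ZMod p) = (d : ZMod p) ^ (p - 3) * r 1 := by
  obtain ⟨hPprime, hlprime, hlp, hnp⟩ := hP
  have hPne : P ≠ ⊥ := by
    rintro rfl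
    rw [Ideal.absNorm_bot] at hlprime
    exact Nat.not_prime_zero hlprime
  have hmax : P.IsMaximal := hPprime.isMaximal hPne
  let _ : Field (𝓞 K ⧸ P) := Ideal.Quotient.field P
  have hfl : Fact (Ideal.absNorm P).Prime := ⟨hlprime⟩
  have hcardF : Nat.card (𝓞 K ⧸ P) = Ideal.absNorm P := by
    rw [Ideal.absNorm_apply, Submodule.cardQuot_apply]
  have hfin : Finite (𝓞 K ⧸ P) := by
    apply Nat.finite_of_card_ne_zero
    rw [hcardF]
    exact hlprime.ne_zero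
  have hchar : CharP (𝓞 K ⧸ P) (Ideal.absNorm P) := by
    rw [CharP.charP_iff_prime_eq_zero hlprime]
    have h0 : Ideal.Quotient.mk P ((Ideal.absNorm P : ℕ) : 𝓞 K) = 0 :=
      Ideal.Quotient.eq_zero_iff_mem.mpr (Ideal.absNorm_mem P)
    simpa using h0
  let φ : ZMod (Ideal.absNorm P) →+* (𝓞 K ⧸ P) := ZMod.castHom (dvd_refl _) _
  have hφ : Function.Injective φ := φ.injective
  obtain ⟨m, hm⟩ := hl1
  have hm0 : 0 < m := by
    rcases Nat.eq_zero_or_pos m with rfl | h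
    · have := hlprime.two_le
      omega
    · exact h
  refine THF.field_main (F := 𝓞 K ⧸ P) p m hp3 hm0 (by rw [hcardF]; exact hm)
    ((s : ℕ) : 𝓞 K ⧸ P) ?_ ?_ (Ideal.Quotient.mk P (eta p K)) r ?_ ?_
  · intro h
    apply hs0
    apply hφ
    rw [map_natCast, map_zero]
    exact h
  · intro k hk
    rw [hcardF]
    apply hs
    apply hφ
    rw [map_pow, map_natCast, map_one]
    exact hk
  · intro d
    obtain ⟨u, hu⟩ := heig d⁻¹
    refine ⟨Ideal.Quotient.mk P (u : 𝓞 K), ?_⟩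
    have hmem := hr d
    rw [sigIdeal] at hmem
    obtain ⟨y, hy, hyeq⟩ := (Ideal.mem_map_iff_of_surjective
      ((sigInt p K d : 𝓞 K ≃+* 𝓞 K) : 𝓞 K →+* 𝓞 K) (sigInt p K d).surjective).mp hmem
    have hinv : ∀ z : 𝓞 K, sigInt p K d⁻¹ (sigInt p K d z) = z := by
      intro z
      have h1 : clRingAction p K d⁻¹ * clRingAction p K d = 1 := by
        rw [← map_mul, inv_mul_cancel, map_one]
      exact congrArg (fun f : 𝓞 K ≃+* 𝓞 K => f z) h1
    have hy2 : y = eta p K ^ (((d⁻¹ : (ZMod p)ˣ) : ZMod p).val ^ 2) * (u : 𝓞 K) ^ p *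
        (s : 𝓞 K) ^ r d - 1 := by
      have h2 := congrArg (sigInt p K d⁻¹) hyeq
      have h3 : sigInt p K d⁻¹ (((sigInt p K d : 𝓞 K ≃+* 𝓞 K) : 𝓞 K →+* 𝓞 K) y) = y := hinv y
      rw [h3, map_sub, map_mul, map_pow, map_natCast, map_one, hu] at h2
      exact h2
    have h4 : Ideal.Quotient.mk P y = 0 := Ideal.Quotient.eq_zero_iff_mem.mpr hy
    rw [hy2, map_sub, map_mul, map_mul, map_pow, map_pow, map_pow, map_natCast, map_one,
      sub_eq_zero] at h4
    exact h4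
  · rintro ⟨j, hj⟩
    apply hnp
    refine ⟨(s : 𝓞 K) ^ j, ?_⟩
    rw [← Ideal.Quotient.eq_zero_iff_mem, map_sub, map_pow, map_pow, map_natCast, hj, sub_self]

end Fermat.Agent.S14
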