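import Fermat.Agent.S14.TH.Defs
import Fermat.Agent.S14.TH.Galois

set_option autoImplicit false
set_option linter.unusedSectionVars false

namespace Fermat.Agent.S14

open NumberField JacobiSumStickelberger
open scoped NumberField nonZeroDivisors

namespace THB

open Polynomial Algebra

/-- `N_{L/K}(x - ξ) = Φ_n(x)` for `x ∈ K` if `Φ_n` is irreducible over `K`. -/
theorem norm_algebraMap_sub {n : ℕ} [NeZero n] {K L : Type*} [Field K] [Field L] [Algebra K L]
    {ζ : L} (hζ : IsPrimitiveRoot ζ n) [IsCyclotomicExtension {n} K L]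
    (hirr : Irreducible (cyclotomic n K)) (x : K) :
    Algebra.norm K (algebraMap K L x - ζ) = eval x (cyclotomic n K) := by
  have := IsCyclotomicExtension.neZero' n K L
  let E := AlgebraicClosure L
  obtain ⟨z, hz⟩ := IsAlgClosed.exists_root _ (degree_cyclotomic_pos n E (NeZero.pos _)).ne.symm
  apply (algebraMap K E).injective
  let := IsCyclotomicExtension.finiteDimensional {n} K L
  let := IsCyclotomicExtension.isGalois {n} K L
  rw [norm_eq_prod_embeddings]
  have Hprod : (Finset.univ.prod fun σ : L →ₐ[K] E => σ (algebraMap K L x - ζ))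
      = eval (algebraMap K E x) (cyclotomic' n E) := by
    rw [cyclotomic', eval_prod, ← @Finset.prod_attach E E, ← Finset.univ_eq_attach]
    refine Fintype.prod_equiv (hζ.embeddingsEquivPrimitiveRoots E hirr) _ _ fun σ => ?_
    simp
  have : NeZero (n : E) := NeZero.of_faithfulSMul K _ n
  rw [Hprod, cyclotomic', ← cyclotomic_eq_prod_X_sub_primitiveRoots (isRoot_cyclotomic_iff.1 hz),
    ← map_cyclotomic n (algebraMap K E), eval_map_algebraMap, aeval_algebraMap_apply]
  simp

variable (p : ℕ) [Fact p.Prime] (K : Type) [Field K] [NumberField K]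
  [IsCyclotomicExtension {p} ℚ K]
variable (l : ℕ) [Fact l.Prime] (L : Type) [Field L] [NumberField L] [Algebra K L]
  [IsCyclotomicExtension {l} K L]

theorem coe_zetaInt : ((zetaInt p K : 𝓞 K) : K) = IsCyclotomicExtension.zeta p ℚ K := rfl

theorem coe_xiInt : ((xiInt K l L : 𝓞 L) : L) = IsCyclotomicExtension.zeta l K L := rfl

theorem coe_wInt (a : ℕ) : ((wInt p K l L a : 𝓞 L) : L)
    = 1 - algebraMap K L (IsCyclotomicExtension.zeta p ℚ K) ^ a
      * IsCyclotomicExtension.zeta l K L := by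
  unfold wInt zetaL
  simp only [map_sub, map_one, map_mul, map_pow]
  rfl

theorem norm_wInt (hlp : l ≠ p) (hl1 : p ∣ l - 1) (a : ℕ) (ha0 : 0 < a) (hap : a < p) :
    Algebra.norm K ((wInt p K l L a : 𝓞 L) : L) = 1 := by
  have hirr := TH_irreducible_cyclotomic p K l hlp
  have hζ := IsCyclotomicExtension.zeta_spec p ℚ K
  have hξ := IsCyclotomicExtension.zeta_spec l K L
  set ζ := IsCyclotomicExtension.zeta p ℚ K with hζdef
  set ξ := IsCyclotomicExtension.zeta l K L with hξdef
  have hl : l.Prime := Fact.out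
  have hmul : ζ ^ a * ζ ^ (p - a) = 1 := by
    rw [← pow_add, Nat.add_sub_cancel' hap.le, hζ.pow_eq_one]
  have hw : ((wInt p K l L a : 𝓞 L) : L)
      = algebraMap K L (ζ ^ a) * (algebraMap K L (ζ ^ (p - a)) - ξ) := by
    rw [coe_wInt, mul_sub, ← map_mul, hmul, map_one, map_pow]
  obtain ⟨t, ht⟩ := hl1
  have hx1 : ζ ^ (p - a) ≠ 1 := by
    intro h
    have := hζ.dvd_of_pow_eq_one _ h
    have h2 := Nat.le_of_dvd (by omega) this
    omega
  have hxl : (ζ ^ (p - a)) ^ l = ζ ^ (p - a) := by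
    have hl' : l = p * t + 1 := by have := hl.pos; omega
    rw [hl', pow_succ, ← pow_mul, mul_comm (p - a), mul_assoc, pow_mul, hζ.pow_eq_one, one_pow,
      one_mul]
  have heval : eval (ζ ^ (p - a)) (cyclotomic l K) = 1 := by
    have h := congrArg (eval (ζ ^ (p - a))) (cyclotomic_prime_mul_X_sub_one K l)
    simp only [eval_mul, eval_sub, eval_X, eval_one, eval_pow, hxl] at h
    exact mul_right_cancel₀ (sub_ne_zero.mpr hx1) (by rw [h, one_mul])
  rw [hw, map_mul, norm_algebraMap_sub hξ hirr, heval, mul_one, Algebra.norm_algebraMap,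
    IsCyclotomicExtension.finrank L hirr, Nat.totient_prime hl, ht, ← pow_mul, mul_comm a,
    mul_assoc, pow_mul, hζ.pow_eq_one, one_pow]

theorem isUnit_wInt (hlp : l ≠ p) (hl1 : p ∣ l - 1) (a : ℕ) (ha0 : 0 < a) (hap : a < p) :
    IsUnit (wInt p K l L a) := by
  rw [NumberField.isUnit_iff_norm, RingOfIntegers.coe_norm, ← Algebra.norm_norm (S := K),
    norm_wInt p K l L hlp hl1 a ha0 hap]
  simp

/-- the norm to `K` as a monoid homomorphism on the units of `𝓞 L` -/
noncomputable def normHom : (𝓞 L)ˣ →* K :=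
  (Algebra.norm K : L →* K).comp
    (((algebraMap (𝓞 L) L : 𝓞 L →+* L) : 𝓞 L →* L).comp (Units.coeHom (𝓞 L)))

theorem normHom_apply (u : (𝓞 L)ˣ) : normHom K L u = Algebra.norm K ((u : 𝓞 L) : L) := rfl

/-- the key congruence `w_a ≡ w_1 * cycUnit a` modulo `λ` -/
theorem mk_wInt (a : ℕ) :
    Ideal.Quotient.mk (Ideal.span {lamInt K l L}) (wInt p K l L a)
      = Ideal.Quotient.mk (Ideal.span {lamInt K l L}) (wInt p K l L 1)
        * Ideal.Quotient.mk (Ideal.span {lamInt K l L})
            (algebraMap (𝓞 K) (𝓞 L) (cycUnit p K a)) := by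
  have hξ : Ideal.Quotient.mk (Ideal.span {lamInt K l L}) (xiInt K l L) = 1 := by
    rw [← map_one (Ideal.Quotient.mk (Ideal.span {lamInt K l L})), eq_comm, Ideal.Quotient.eq]
    exact Ideal.subset_span rfl
  unfold wInt cycUnit zetaL
  simp only [map_sub, map_one, map_mul, map_pow, map_sum, hξ, mul_one, pow_one]
  rw [← neg_sub, ← neg_sub _ (1 : 𝓞 L ⧸ Ideal.span {lamInt K l L}), neg_mul, mul_geom_sum]

end THB

open THB

variable (p : ℕ) [Fact p.Prime] (K : Type) [Field K] [NumberField K]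
  [IsCyclotomicExtension {p} ℚ K]
variable (l : ℕ) [Fact l.Prime] (L : Type) [Field L] [NumberField L] [Algebra K L]
  [IsCyclotomicExtension {l} K L]

theorem TH_exists_unit (hlp : l ≠ p) (hl1 : p ∣ l - 1) :
    ∃ ε : (𝓞 L)ˣ, Algebra.norm K ((ε : 𝓞 L) : L) = 1 ∧
      (ε : 𝓞 L) - algebraMap (𝓞 K) (𝓞 L) (eta p K) ∈ Ideal.span {lamInt K l L} := by
  classical
  have hp : p.Prime := Fact.out
  -- the units `u_a`
  let u : ℕ → (𝓞 L)ˣ := fun a =>
    if h : 0 < a ∧ a < p then (isUnit_wInt p K l L hlp hl1 a h.1 h.2).unit else 1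
  have hu : ∀ a, 0 < a → a < p → ((u a : (𝓞 L)ˣ) : 𝓞 L) = wInt p K l L a := by
    intro a h0 h1
    simp only [u, dif_pos (And.intro h0 h1)]
    rfl
  have hun : ∀ a, 0 < a → a < p → normHom K L (u a) = 1 := by
    intro a h0 h1
    rw [normHom_apply, hu a h0 h1, norm_wInt p K l L hlp hl1 a h0 h1]
  refine ⟨∏ a ∈ Finset.Ioo 0 p, (u a * (u 1)⁻¹) ^ (a ^ (p - 3)), ?_, ?_⟩
  · rw [← normHom_apply, map_prod]
    refine Finset.prod_eq_one fun a ha => ?_
    rw [Finset.mem_Ioo] at ha
    rw [map_pow, map_mul, map_inv, hun a ha.1 ha.2, hun 1 one_pos hp.one_lt]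
    simp
  · rw [← Ideal.Quotient.eq]
    unfold eta
    simp only [Units.coe_prod, Units.val_pow_eq_pow_val, Units.val_mul, map_prod, map_pow,
      map_mul]
    refine Finset.prod_congr rfl fun a ha => ?_
    rw [Finset.mem_Ioo] at ha
    congr 1
    rw [hu a ha.1 ha.2, mk_wInt, ← hu 1 one_pos hp.one_lt, mul_comm, ← mul_assoc, ← map_mul,
      Units.inv_mul, map_one, one_mul]

end Fermat.Agent.S14
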